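/-
helper77, P-S58 row 1092 (S58-WIRE):

  `wire35 (h35 : S35Statement) (hE : EigenCharStatement) : Wire35Statement`
  `wire36 (h36 : S36Statement) (hE : EigenCharStatement) : Wire36Statement`

S35 / S36 applied to the newform `g` of `MatchData W N M g` with `O' = ℤ_[lam]`,
`S = insert lam N.primeFactors`, the Hecke character `chig` of `hE` (its range is `ℤ ⊆ ℂ`) and
`iota : chig.range = ℤ → ℤ_[lam]`.
-/
import Fermat.Agent.H51.S58.Interfaces

set_option autoImplicit false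
set_option linter.style.haveILetI false
set_option linter.unusedSectionVars false
set_option linter.unusedVariables false

open Polynomial WeierstrassCurve WeierstrassCurve.Affine

namespace Fermat.Agent.H77.S58

open Fermat.Agent.H51.S58

/-! ### `ℤ ⊆ ℂ` -/

/-- `ℤ ≃ (Int.castRingHom ℂ).range`. -/
noncomputable def s58wIntEquiv : ℤ ≃+* (Int.castRingHom ℂ).range :=
  RingEquiv.ofLeftInverse (g := fun z : ℂ => ⌊z.re⌋) (f := Int.castRingHom ℂ)
    (fun n => by simp)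

lemma s58wIntEquiv_coe (a : ℤ) : ((s58wIntEquiv a : (Int.castRingHom ℂ).range) : ℂ) = (a : ℂ) :=
  rfl

lemma s58wIntEquiv_symm_eq {y : (Int.castRingHom ℂ).range} {a : ℤ} (h : (y : ℂ) = (a : ℂ)) :
    s58wIntEquiv.symm y = a := by
  rw [RingEquiv.symm_apply_eq]
  exact Subtype.ext (h.trans (s58wIntEquiv_coe a).symm)

/-! ### The set `S` -/

section setS

variable {W : WeierstrassCurve ℤ} {N M : ℕ} {g : CuspForm (CongruenceSubgroup.Gamma0 M) 2}

lemma s58w_mem_S (hmd : MatchData W N M g) (lam : ℕ) (q : ℕ) (hq : q.Prime) (hqM : q ∣ M) :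
    q ∈ insert lam N.primeFactors :=
  Finset.mem_insert_of_mem (Nat.mem_primeFactors.2 ⟨hq, hqM.trans hmd.dvd, hmd.ne_zero⟩)

lemma s58w_not_dvd_N (hmd : MatchData W N M g) (lam : ℕ) (ℓ : ℕ) (hℓ : ℓ.Prime)
    (hℓS : ℓ ∉ insert lam N.primeFactors) : ¬ ℓ ∣ N := fun h =>
  hℓS (Finset.mem_insert_of_mem (Nat.mem_primeFactors.2 ⟨hℓ, h, hmd.ne_zero⟩))

lemma s58w_not_dvd_M (hmd : MatchData W N M g) (lam : ℕ) (ℓ : ℕ) (hℓ : ℓ.Prime)
    (hℓS : ℓ ∉ insert lam N.primeFactors) : ¬ ℓ ∣ M := fun h =>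
  hℓS (s58w_mem_S hmd lam ℓ hℓ h)

lemma s58w_ne_lam (lam : ℕ) (ℓ : ℕ) (hℓS : ℓ ∉ insert lam N.primeFactors) : ℓ ≠ lam := by
  rintro rfl
  exact hℓS (Finset.mem_insert_self _ _)

end setS

/-! ### The Hecke character and `iota` -/

/-- The Hecke character of `g` away from `S = insert lam N.primeFactors` and the map
`iota : chig.range → ℤ_[lam]` with `iota (chig T_ℓ) = a_ℓ(W)`. -/
theorem s58w_setup (hE : EigenCharStatement) (W : WeierstrassCurve ℤ) (N M : ℕ) [NeZero M]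
    (g : CuspForm (CongruenceSubgroup.Gamma0 M) 2) (hmd : MatchData W N M g)
    (lam : ℕ) [Fact lam.Prime] :
    ∃ (chig : CuspForm.heckeAlgebra M 2 (↑(insert lam N.primeFactors : Finset ℕ) : Set ℕ) →+* ℂ)
      (iota : chig.range →+* ℤ_[lam]),
      (∀ (ℓ : ℕ) (hℓ : ℓ.Prime) (hℓM : ¬ ℓ ∣ M)
          (hℓS : ℓ ∉ (↑(insert lam N.primeFactors : Finset ℕ) : Set ℕ)),
        chig (CuspForm.heckeAlgebra.T hℓ hℓM hℓS) = ModularFormClass.qCoeff g ℓ) ∧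
      ∀ (ℓ : ℕ) (hℓ : ℓ.Prime) (hℓM : ¬ ℓ ∣ M)
          (hℓS : ℓ ∉ (↑(insert lam N.primeFactors : Finset ℕ) : Set ℕ)),
        (iota.comp chig.rangeRestrict) (CuspForm.heckeAlgebra.T hℓ hℓM hℓS)
          = ((W.apOfModel ℓ : ℤ) : ℤ_[lam]) := by
  obtain ⟨chig, hchig, hrange⟩ := hE M g hmd.newform.1 (insert lam N.primeFactors)
    (fun q hq hqM => s58w_mem_S hmd lam q hq hqM)
  have hle : chig.range ≤ (Int.castRingHom ℂ).range := by
    apply hrange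
    intro ℓ hℓ hℓM hℓS
    refine ⟨W.apOfModel ℓ, ?_⟩
    rw [hmd.coeff ℓ hℓ (s58w_not_dvd_N hmd lam ℓ hℓ hℓS)]
    rfl
  refine ⟨chig, (Int.castRingHom ℤ_[lam]).comp
    (s58wIntEquiv.symm.toRingHom.comp (Subring.inclusion hle)), hchig, ?_⟩
  intro ℓ hℓ hℓM hℓS
  have hℓS' : ℓ ∉ insert lam N.primeFactors := fun h => hℓS (Finset.mem_coe.2 h)
  have h1 : s58wIntEquiv.symm (Subring.inclusion hle
      (chig.rangeRestrict (CuspForm.heckeAlgebra.T hℓ hℓM hℓS))) = W.apOfModel ℓ := by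
    apply s58wIntEquiv_symm_eq
    show chig (CuspForm.heckeAlgebra.T hℓ hℓM hℓS) = _
    rw [hchig ℓ hℓ hℓM hℓS, hmd.coeff ℓ hℓ (s58w_not_dvd_N hmd lam ℓ hℓ hℓS')]
  show (Int.castRingHom ℤ_[lam]) (s58wIntEquiv.symm (Subring.inclusion hle
      (chig.rangeRestrict (CuspForm.heckeAlgebra.T hℓ hℓM hℓS)))) = _
  rw [h1]
  rfl

/-! ### `ℤ_[lam]` -/

lemma s58w_lam_mem (lam : ℕ) [Fact lam.Prime] :
    (lam : ℤ_[lam]) ∈ IsLocalRing.maximalIdeal ℤ_[lam] := by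
  rw [PadicInt.maximalIdeal_eq_span_p]
  exact Ideal.mem_span_singleton_self _

lemma s58w_finite_residue (lam : ℕ) [Fact lam.Prime] :
    Finite (IsLocalRing.ResidueField ℤ_[lam]) :=
  Finite.of_equiv (ZMod lam) (PadicInt.residueField (p := lam)).symm.toEquiv

/-- `lam` lies in the maximal ideal of a local extension of `ℤ_[lam]`. -/
lemma s58w_lam_mem_ext (lam : ℕ) [Fact lam.Prime] (O'' : Type) [CommRing O''] [IsLocalRing O'']
    [Algebra ℤ_[lam] O''] [IsLocalHom (algebraMap ℤ_[lam] O'')] :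
    (lam : O'') ∈ IsLocalRing.maximalIdeal O'' := by
  rw [IsLocalRing.mem_maximalIdeal, mem_nonunits_iff]
  intro hu
  have h1 : algebraMap ℤ_[lam] O'' (lam : ℤ_[lam]) = (lam : O'') := map_natCast _ _
  rw [← h1] at hu
  have h2 : IsUnit (lam : ℤ_[lam]) := IsUnit.of_map (algebraMap ℤ_[lam] O'') _ hu
  have h3 := s58w_lam_mem lam
  rw [IsLocalRing.mem_maximalIdeal, mem_nonunits_iff] at h3
  exact h3 h2

/-! ### The two wirings -/

/-- **WIRE35.** -/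
theorem wire35 (h35 : S35Statement) (hE : EigenCharStatement) : Wire35Statement := by
  intro W N M _ g hmd lam _
  obtain ⟨chig, iota, hchig, hiota⟩ := s58w_setup hE W N M g hmd lam
  haveI := s58w_finite_residue lam
  obtain ⟨O'', i1, i2, i3, i4, i5, i6, i7, i8, i9, hinj, ρ, hρ1, hρ2⟩ :=
    h35 (M := M) (g := g) hmd.newform lam (insert lam N.primeFactors) ℤ_[lam]
      (s58w_lam_mem lam) chig hchig iota (Finset.mem_insert_self _ _)
      (fun q hq hqM => s58w_mem_S hmd lam q hq hqM)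
  refine ⟨O'', i1, i2, i3, i6, s58w_lam_mem_ext lam O'', ρ, ?_, hρ2⟩
  intro ℓ hℓ hℓS A hA σ hσ
  have hℓM : ¬ ℓ ∣ M := s58w_not_dvd_M hmd lam ℓ hℓ hℓS
  have hℓS' : ℓ ∉ (↑(insert lam N.primeFactors : Finset ℕ) : Set ℕ) :=
    fun h => hℓS (Finset.mem_coe.1 h)
  rw [hρ1 ℓ hℓ hℓM hℓS' A hA σ hσ, hiota ℓ hℓ hℓM hℓS', map_intCast]

/-- **WIRE36.** -/
theorem wire36 (h36 : S36Statement) (hE : EigenCharStatement) : Wire36Statement := by
  intro W N M _ g hmd p _ hp2 hres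
  obtain ⟨chig, iota, hchig, hiota⟩ := s58w_setup hE W N M g hmd p
  haveI := s58w_finite_residue p
  obtain ⟨O'', i1, i2, i3, i4, i5, i6, i7, i8, i9, hinj, ρ, hρ1, hρ2⟩ :=
    h36 (M := M) (g := g) hmd.newform p (insert p N.primeFactors) ℤ_[p]
      (s58w_lam_mem p) hp2 chig hchig iota (Finset.mem_insert_self _ _)
      (fun q hq hqM => s58w_mem_S hmd p q hq hqM)
      (by
        intro O'' _ _ _ _ _ _ _ _ _ hinj ρ hρ
        refine hres O'' (s58w_lam_mem_ext p O'') ρ ?_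
        intro ℓ hℓ hℓS A hA σ hσ
        have hℓM : ¬ ℓ ∣ M := s58w_not_dvd_M hmd p ℓ hℓ hℓS
        have hℓS' : ℓ ∉ (↑(insert p N.primeFactors : Finset ℕ) : Set ℕ) :=
          fun h => hℓS (Finset.mem_coe.1 h)
        rw [hρ ℓ hℓ (s58w_ne_lam p ℓ hℓS) hℓM hℓS' A hA σ hσ, hiota ℓ hℓ hℓM hℓS',
          map_intCast])
  refine ⟨O'', i1, i2, i3, i6, s58w_lam_mem_ext p O'', ρ, ?_, hρ2⟩
  intro ℓ hℓ hℓS A hA σ hσ
  have hℓM : ¬ ℓ ∣ M := s58w_not_dvd_M hmd p ℓ hℓ hℓS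
  have hℓS' : ℓ ∉ (↑(insert p N.primeFactors : Finset ℕ) : Set ℕ) :=
    fun h => hℓS (Finset.mem_coe.1 h)
  rw [hρ1 ℓ hℓ hℓM hℓS' A hA σ hσ, hiota ℓ hℓ hℓM hℓS', map_intCast]

end Fermat.Agent.H77.S58
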